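/-
Programme MAZ (S15), brick 744 T1B-U6 TORS-CMP ("local torsion is algebraic"), step (T4) COUNT,
generic form (helper73).

For an algebraically closed field `K` of characteristic zero, a curve function field `F / K`, and a
two-chart ring `c : TwoChart K R0 R1 R01` with Dedekind charts of fraction field `F` covering all
places of `F / K` (the exact instance context of `AV/PicBridge84/Torsion.lean`):

* `card_picQ_torsion`, `card_linePic_torsion`, `card_additive_linePic_torsion` :
  `#(Pic of the two-chart curve)[r ^ k] = r ^ (2 * genusFF K F * k)`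
  (`PicBridge84.Torsion.card_torsion_eq` + S27);
* `card_pic0_torsion` : `#{x : Pic0 K F // r ^ k • x = 0} = r ^ (2 * genusFF K F * k)` (S27);
* `card_le_of_genus_le` / `finite_additive_linePic_torsion` : the hypotheses of
  `K3Abs43.hcmp_of_card_le`;
* **`hcmp_of_genus_le`** : if `genusFF K F ≤ genusFF Q FQ` (`FQ / Q` a second curve over an
  algebraically closed field of characteristic zero), then EVERY injective homomorphism
  `j : ↥S →+ Additive (LinePic c)` from a subgroup `S ≤ Pic0 Q FQ` containing the `r ^ k`-torsion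
  hits every `r ^ k`-torsion class: the hypothesis `hcmp` of `K3Abs43.exists_global_root`.

In the application `K = Ω = Kbar p`, `c = c0.baseChange Ω` (`Additive (LinePic c)` is
`Local66.Union.Atop p K c0` definitionally), `Q = Qbar`, `FQ = modularFunctionFieldBar (4 p)`.
-/
import Mathlib
import Fermat.Agent.S27
import Fermat.Agent.AV.PicBridge84.Torsion
import Fermat.Agent.Jac.BridgeK84
import Fermat.Agent.MAZ.K3Abs43.Count

set_option autoImplicit false
set_option linter.unusedSectionVars false

universe u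

open AlgebraicCurve
open Fermat.Agent.Jac Fermat.Agent.Jac.AbelJacobi73 Fermat.Agent.Jac.JGroup85Pic
open Fermat.Agent.AV.PicBridge84.Places

namespace Fermat.Agent.MAZ.TorsCmp73

/-! ### The `Pic0` side -/

section Pic0Side

variable (Q FQ : Type*) [Field Q] [Field FQ] [Algebra Q FQ]

/-- `Pic0.torsion` as a plain subtype. -/
def torsionEquiv (n : ℕ) : Pic0.torsion Q FQ n ≃ {x : Pic0 Q FQ // n • x = 0} where
  toFun x := ⟨x.1, by
    have h := Pic0.mem_torsion.1 x.2
    rwa [natCast_zsmul] at h⟩
  invFun x := ⟨x.1, Pic0.mem_torsion.2 (by rw [natCast_zsmul]; exact x.2)⟩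
  left_inv _ := rfl
  right_inv _ := rfl

/-- S27 in subtype form. -/
theorem card_pic0_torsion [IsAlgClosed Q] [CharZero Q] [IsCurveOver Q FQ]
    [Algebra.EssFiniteType Q FQ] (r : ℕ) [Fact r.Prime] (k : ℕ) :
    Nat.card {x : Pic0 Q FQ // r ^ k • x = 0} = r ^ (2 * genusFF Q FQ * k) := by
  rw [← Nat.card_congr (torsionEquiv Q FQ (r ^ k))]
  exact Fermat.Agent.S27.result Q FQ r k

end Pic0Side

/-! ### The two-chart side -/

section Chart

variable {K F : Type u} [Field K] [Field F] [Algebra K F]
variable {R0 R1 R01 : Type u} [CommRing R0] [CommRing R1] [CommRing R01]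
  [Algebra K R0] [Algebra K R1] [Algebra K R01] [Algebra R0 R01] [Algebra R1 R01]
  [IsScalarTower K R0 R01] [IsScalarTower K R1 R01]
  [IsDedekindDomain R0] [IsDedekindDomain R1] [IsDomain R01]
  [Algebra R0 F] [Algebra R1 F] [Algebra R01 F]
  [IsScalarTower R0 R01 F] [IsScalarTower R1 R01 F] [IsScalarTower K R0 F] [IsScalarTower K R1 F]
  [IsFractionRing R0 F] [IsFractionRing R1 F]
  [IsAlgClosed K] [CharZero K] [IsCurveOver K F] [Algebra.EssFiniteType K F]

variable {c : TwoChart K R0 R1 R01}

/-- `#PicQ(c)[r ^ k] = r ^ (2 g k)`. -/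
theorem card_picQ_torsion (H : CurveHyp c)
    (hcov : ∀ v : Place K F, Contains v R0 ∨ Contains v R1) (r : ℕ) [hr : Fact r.Prime] (k : ℕ) :
    Nat.card {η : PicQ c // η ^ (r ^ k) = 1} = r ^ (2 * genusFF K F * k) := by
  rw [← Fermat.Agent.AV.PicBridge84.Torsion.card_torsion_eq (K := K) (F := F) H hcov
    (fun v => IsCurveOver.deg_eq_one_of_isAlgClosed v) (pow_pos hr.out.pos k)]
  exact Fermat.Agent.S27.result K F r k

/-- `#LinePic(c)[r ^ k] = r ^ (2 g k)`. -/
theorem card_linePic_torsion (H : CurveHyp c)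
    (hcov : ∀ v : Place K F, Contains v R0 ∨ Contains v R1) (r : ℕ) [Fact r.Prime] (k : ℕ) :
    Nat.card {η : LinePic c // η ^ (r ^ k) = 1} = r ^ (2 * genusFF K F * k) := by
  rw [← card_picQ_torsion (F := F) H hcov r k]
  refine Nat.card_congr
    { toFun := fun η => ⟨Fermat.Agent.Jac.BridgeK84.picEquiv c η.1, by
        rw [← _root_.map_pow, η.2, _root_.map_one]⟩
      invFun := fun η => ⟨(Fermat.Agent.Jac.BridgeK84.picEquiv c).symm η.1, by
        rw [← _root_.map_pow, η.2, _root_.map_one]⟩
      left_inv := fun η => Subtype.ext ((Fermat.Agent.Jac.BridgeK84.picEquiv c).symm_apply_apply _)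
      right_inv := fun η => Subtype.ext ((Fermat.Agent.Jac.BridgeK84.picEquiv c).apply_symm_apply _) }

/-- the additive form. -/
def additiveTorsionEquiv (P : Type*) [CommGroup P] (n : ℕ) :
    {t : Additive P // n • t = 0} ≃ {η : P // η ^ n = 1} where
  toFun t := ⟨Additive.toMul t.1, by
    have h := congrArg Additive.toMul t.2
    rwa [toMul_nsmul, toMul_zero] at h⟩
  invFun η := ⟨Additive.ofMul η.1, by
    apply Additive.toMul.injective
    rw [toMul_nsmul, toMul_ofMul, toMul_zero]
    exact η.2⟩
  left_inv _ := rfl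
  right_inv _ := rfl

/-- `#(Additive LinePic(c))[r ^ k] = r ^ (2 g k)`. -/
theorem card_additive_linePic_torsion (H : CurveHyp c)
    (hcov : ∀ v : Place K F, Contains v R0 ∨ Contains v R1) (r : ℕ) [Fact r.Prime] (k : ℕ) :
    Nat.card {t : Additive (LinePic c) // r ^ k • t = 0} = r ^ (2 * genusFF K F * k) := by
  rw [Nat.card_congr (additiveTorsionEquiv (LinePic c) (r ^ k))]
  exact card_linePic_torsion (F := F) H hcov r k

/-- the `r ^ k`-torsion of the Picard group of the two-chart curve is finite. -/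
theorem finite_additive_linePic_torsion (H : CurveHyp c)
    (hcov : ∀ v : Place K F, Contains v R0 ∨ Contains v R1) (r : ℕ) [hr : Fact r.Prime] (k : ℕ) :
    Finite {t : Additive (LinePic c) // r ^ k • t = 0} := by
  apply Nat.finite_of_card_ne_zero
  rw [card_additive_linePic_torsion (F := F) H hcov r k]
  exact pow_ne_zero _ hr.out.ne_zero

variable (Q FQ : Type*) [Field Q] [Field FQ] [Algebra Q FQ] [IsAlgClosed Q] [CharZero Q]
  [IsCurveOver Q FQ] [Algebra.EssFiniteType Q FQ]

/-- the cardinality inequality of `K3Abs43.hcmp_of_card_le` from the genus inequality. -/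
theorem card_le_of_genus_le (H : CurveHyp c)
    (hcov : ∀ v : Place K F, Contains v R0 ∨ Contains v R1)
    (hg : genusFF K F ≤ genusFF Q FQ) (r : ℕ) [hr : Fact r.Prime] (k : ℕ) :
    Nat.card {t : Additive (LinePic c) // r ^ k • t = 0}
      ≤ Nat.card {x : Pic0 Q FQ // r ^ k • x = 0} := by
  rw [card_additive_linePic_torsion (F := F) H hcov r k, card_pic0_torsion Q FQ r k]
  exact Nat.pow_le_pow_right hr.out.pos
    (Nat.mul_le_mul_right k (Nat.mul_le_mul_left 2 hg))

/-- **TORS-CMP, generic form**: local torsion is algebraic.  Every injective homomorphism from a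
subgroup `S` of `Pic0 Q FQ` containing the `r ^ k`-torsion to the Picard group of a two-chart curve
over `K` of genus `≤ genusFF Q FQ` hits every `r ^ k`-torsion class. -/
theorem hcmp_of_genus_le (H : CurveHyp c)
    (hcov : ∀ v : Place K F, Contains v R0 ∨ Contains v R1)
    (hg : genusFF K F ≤ genusFF Q FQ) (r : ℕ) [Fact r.Prime] (k : ℕ)
    (S : AddSubgroup (Pic0 Q FQ)) (hS : ∀ x : Pic0 Q FQ, r ^ k • x = 0 → x ∈ S)
    (j : ↥S →+ Additive (LinePic c)) (hinj : Function.Injective j) :
    ∀ t : Additive (LinePic c), r ^ k • t = 0 → ∃ τ : ↥S, j τ = t := by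
  have := finite_additive_linePic_torsion (F := F) H hcov r k
  exact Fermat.Agent.MAZ.K3Abs43.hcmp_of_card_le S j hinj (r ^ k) hS
    (card_le_of_genus_le (F := F) Q FQ H hcov hg r k)

/-- The same with the torsion information on the preimage. -/
theorem exists_torsion_preimage_of_genus_le (H : CurveHyp c)
    (hcov : ∀ v : Place K F, Contains v R0 ∨ Contains v R1)
    (hg : genusFF K F ≤ genusFF Q FQ) (r : ℕ) [Fact r.Prime] (k : ℕ)
    (S : AddSubgroup (Pic0 Q FQ)) (hS : ∀ x : Pic0 Q FQ, r ^ k • x = 0 → x ∈ S)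
    (j : ↥S →+ Additive (LinePic c)) (hinj : Function.Injective j) :
    ∀ t : Additive (LinePic c), r ^ k • t = 0 → ∃ τ : ↥S, r ^ k • τ = 0 ∧ j τ = t := by
  have := finite_additive_linePic_torsion (F := F) H hcov r k
  exact Fermat.Agent.MAZ.K3Abs43.exists_torsion_preimage_of_card_le S j hinj (r ^ k) hS
    (card_le_of_genus_le (F := F) Q FQ H hcov hg r k)

end Chart

end Fermat.Agent.MAZ.TorsCmp73
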