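/-
Programme MAZ (S15), brick 744 T1B-U6 TORS-CMP ("local torsion is algebraic"), INTEGRATION, base
change form (helper73).

`c0 : TwoChart W B0 B1 B01` a two-chart ring over a base ring `W`, `Ω` an algebraically closed
`W`-field of characteristic zero (application: `W = Wb p K`, `c0` the nodal hub at level `4p`,
`Ω = Kbar p`).  With helper94's function field `FOmega c0 Ω = Frac (Ω ⊗[W] B01)` of the generic fibre
(`MAZ/TorsCmp94/BaseChange.lean`: `IsCurveOver`, `EssFiniteType`, fraction rings, covering) the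
generic count `TorsCmp73.hcmp_of_genus_le` gives:

* `card_picX_torsion` : `#(Pic X_Ω)[r ^ k] = r ^ (2 * genusFF Ω (FOmega c0 Ω) * k)`;
* **`hcmp_baseChange`** : if `genusFF Ω (FOmega c0 Ω) ≤ genusFF Q FQ`, every injective homomorphism
  `j : ↥S →+ Additive (PicX c0 Ω)` from a subgroup `S ≤ Pic0 Q FQ` containing the `r ^ k`-torsion hits
  every `r ^ k`-torsion class (`hcmp` of `K3Abs43.exists_global_root`);
* `hcmp_baseChange_top` : the same for `j : Pic0 Q FQ →+ Additive (PicX c0 Ω)` (`hcmp` of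
  `K3Abs43.k3_abstract`).

Hypotheses: Dedekind charts / domain overlap of the generic fibre (helper1 `DescSep1.Gen`), charts
integral over the line (`hint0`, `hint1`), `t` transcendental (`htr`), `CurveHyp (c0.baseChange Ω)`
(helper47 `MAZ/TorsCmp47/CurveHyp.lean`), and the genus inequality (helper12 `MAZ/TorsCmp12` +
helper32 `MAZ/TorsCmp32`).
-/
import Mathlib
import Fermat.Agent.MAZ.TorsCmp73.Count
import Fermat.Agent.MAZ.TorsCmp94.BaseChange
import Fermat.Agent.T1.RedIface75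

set_option autoImplicit false
set_option linter.unusedSectionVars false
set_option linter.style.haveILetI false

universe u

open AlgebraicCurve TensorProduct
open Fermat.Agent.Jac Fermat.Agent.Jac.AbelJacobi73 Fermat.Agent.Jac.JGroup85Pic
open Fermat.Agent.T1.RedIface75 Fermat.Agent.MAZ.TorsCmp94
open scoped Fermat.Agent.Jac.BaseChange75

namespace Fermat.Agent.MAZ.TorsCmp73

variable {W B0 B1 B01 : Type u} [CommRing W] [CommRing B0] [CommRing B1] [CommRing B01]
  [Algebra W B0] [Algebra W B1] [Algebra W B01] [Algebra B0 B01] [Algebra B1 B01]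
  [IsScalarTower W B0 B01] [IsScalarTower W B1 B01] (c0 : TwoChart W B0 B1 B01)
  (Ω : Type u) [Field Ω] [Algebra W Ω] [IsAlgClosed Ω] [CharZero Ω]
  [IsDedekindDomain (Ω ⊗[W] B0)] [IsDedekindDomain (Ω ⊗[W] B1)] [IsDomain (Ω ⊗[W] B01)]
  [Algebra.FiniteType W B0]
  (hint0 : ∀ x : B0, IsIntegral (Algebra.adjoin W {c0.t}) x)
  (hint1 : ∀ x : B1, IsIntegral (Algebra.adjoin W {c0.s}) x)
  (htr : Transcendental Ω (tOmega c0 Ω))
  (H : CurveHyp (c0.baseChange Ω))

include hint0 hint1 htr H in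
/-- `#(Pic X_Ω)[r ^ k] = r ^ (2 g_Ω k)`. -/
theorem card_picX_torsion (r : ℕ) [Fact r.Prime] (k : ℕ) :
    Nat.card {t : Additive (PicX c0 Ω) // r ^ k • t = 0}
      = r ^ (2 * genusFF Ω (FOmega (W := W) (B01 := B01) Ω) * k) := by
  haveI := isFractionRing0_baseChange c0 Ω
  haveI := isFractionRing1_baseChange c0 Ω
  haveI := isCurveOver_baseChange c0 Ω hint0 htr
  haveI := essFiniteType_baseChange c0 Ω hint0 htr
  exact card_additive_linePic_torsion (F := FOmega (W := W) (B01 := B01) Ω) H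
    (fun v => covering_baseChange c0 Ω hint0 hint1 v) r k

variable (Q FQ : Type*) [Field Q] [Field FQ] [Algebra Q FQ] [IsAlgClosed Q] [CharZero Q]
  [IsCurveOver Q FQ] [Algebra.EssFiniteType Q FQ]

include hint0 hint1 htr H in
/-- **TORS-CMP, base change form.** -/
theorem hcmp_baseChange
    (hg : genusFF Ω (FOmega (W := W) (B01 := B01) Ω) ≤ genusFF Q FQ)
    (r : ℕ) [Fact r.Prime] (k : ℕ)
    (S : AddSubgroup (Pic0 Q FQ)) (hS : ∀ x : Pic0 Q FQ, r ^ k • x = 0 → x ∈ S)
    (j : ↥S →+ Additive (PicX c0 Ω)) (hinj : Function.Injective j) :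
    ∀ t : Additive (PicX c0 Ω), r ^ k • t = 0 → ∃ τ : ↥S, j τ = t := by
  haveI := isFractionRing0_baseChange c0 Ω
  haveI := isFractionRing1_baseChange c0 Ω
  haveI := isCurveOver_baseChange c0 Ω hint0 htr
  haveI := essFiniteType_baseChange c0 Ω hint0 htr
  exact hcmp_of_genus_le (F := FOmega (W := W) (B01 := B01) Ω) Q FQ H
    (fun v => covering_baseChange c0 Ω hint0 hint1 v) hg r k S hS j hinj

include hint0 hint1 htr H in
/-- **TORS-CMP, base change form, for a dictionary defined on the whole of `Pic0 Q FQ`** (the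
hypothesis `hcmp` of `K3Abs43.k3_abstract`, for one `k`). -/
theorem hcmp_baseChange_top
    (hg : genusFF Ω (FOmega (W := W) (B01 := B01) Ω) ≤ genusFF Q FQ)
    (r : ℕ) [Fact r.Prime] (k : ℕ)
    (j : Pic0 Q FQ →+ Additive (PicX c0 Ω)) (hinj : Function.Injective j) :
    ∀ t : Additive (PicX c0 Ω), r ^ k • t = 0 → ∃ τ : Pic0 Q FQ, j τ = t := by
  intro t ht
  obtain ⟨τ, hτ⟩ := hcmp_baseChange c0 Ω hint0 hint1 htr H Q FQ hg r k ⊤
    (fun x _ => AddSubgroup.mem_top x) (j.comp (⊤ : AddSubgroup (Pic0 Q FQ)).subtype)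
    (hinj.comp Subtype.val_injective) t ht
  exact ⟨τ.1, hτ⟩

include hint0 hint1 htr H in
/-- The same with the torsion information on the preimage. -/
theorem exists_torsion_preimage_baseChange_top
    (hg : genusFF Ω (FOmega (W := W) (B01 := B01) Ω) ≤ genusFF Q FQ)
    (r : ℕ) [Fact r.Prime] (k : ℕ)
    (j : Pic0 Q FQ →+ Additive (PicX c0 Ω)) (hinj : Function.Injective j) :
    ∀ t : Additive (PicX c0 Ω), r ^ k • t = 0 → ∃ τ : Pic0 Q FQ, r ^ k • τ = 0 ∧ j τ = t := by
  intro t ht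
  obtain ⟨τ, hτ⟩ := hcmp_baseChange_top c0 Ω hint0 hint1 htr H Q FQ hg r k j hinj t ht
  refine ⟨τ, hinj ?_, hτ⟩
  rw [map_nsmul, hτ, ht, map_zero]

end Fermat.Agent.MAZ.TorsCmp73
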