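/-
Programme MAZ (S15), brick 744 T1B-U6 TORS-CMP ("local torsion is algebraic"), FINAL FORM on
`A = Atop p K c0 = Additive (Pic X_{ℚ̄_p})` (helper73).

`c0 : TwoChart (Wb p K) B0 B1 B01` a two-chart ring over `W = Wb p K` (the nodal hub of T1B at level
`N = 4p`), `Ω = Kbar p` with its `W`-algebra structure `algWKbar p K`.

* **`hcmp_Atop`** : if `genusFF Ω (FOmega c0 Ω) ≤ genusFF ℚ̄ (modularFunctionFieldBar N)`, every
  injective homomorphism `j : JZero N →+ Atop p K c0` hits every `r ^ k`-torsion class of `Atop p K c0`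
  — the hypothesis `hcmp` of `K3Abs43.k3_abstract` (for all `k` at once: `hcmp_Atop_all`);
* `hcmp_Atop_sub` : the same for `j : ↥S →+ Atop p K c0`, `S ⊇ J₀(N)(ℚ̄)[r ^ k]`
  (`K3Abs43.exists_global_root`);
* `card_Atop_torsion` : `#A[r ^ k] = r ^ (2 g_Ω k)`.
-/
import Mathlib
import Fermat.Agent.MAZ.TorsCmp73.BaseChange
import Fermat.Agent.T1B.Local66.Union
import Fermat.Agent.MW.CurveInst7

set_option autoImplicit false
set_option linter.unusedSectionVars false
set_option linter.style.haveILetI false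

open AlgebraicCurve ModularCurve TensorProduct
open Fermat.Agent.TW.B5.Iface Fermat.Agent.RED.Interface4
open Fermat.Agent.Jac Fermat.Agent.Jac.AbelJacobi73 Fermat.Agent.Jac.JGroup85Pic
open Fermat.Agent.T1.RedIface75 Fermat.Agent.MAZ.TorsCmp94
open Fermat.Agent.T1B.Local66.LocalBase Fermat.Agent.T1B.Local66.Union
open scoped Fermat.Agent.Jac.BaseChange75

namespace Fermat.Agent.MAZ.TorsCmp73

variable (p : ℕ) [Fact p.Prime] (K : IntermediateField ℚ Qbar)

attribute [local instance] algWKbar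

variable {B0 B1 B01 : Type} [CommRing B0] [CommRing B1] [CommRing B01]
  [Algebra (Wb p K) B0] [Algebra (Wb p K) B1] [Algebra (Wb p K) B01] [Algebra B0 B01]
  [Algebra B1 B01] [IsScalarTower (Wb p K) B0 B01] [IsScalarTower (Wb p K) B1 B01]
  (c0 : TwoChart (Wb p K) B0 B1 B01)
  [IsDedekindDomain (Kbar p ⊗[Wb p K] B0)] [IsDedekindDomain (Kbar p ⊗[Wb p K] B1)]
  [IsDomain (Kbar p ⊗[Wb p K] B01)] [Algebra.FiniteType (Wb p K) B0]
  (hint0 : ∀ x : B0, IsIntegral (Algebra.adjoin (Wb p K) {c0.t}) x)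
  (hint1 : ∀ x : B1, IsIntegral (Algebra.adjoin (Wb p K) {c0.s}) x)
  (htr : Transcendental (Kbar p) (tOmega c0 (Kbar p)))
  (H : CurveHyp (c0.baseChange (Kbar p)))

include hint0 hint1 htr H in
/-- `#A[r ^ k] = r ^ (2 g_Ω k)` for `A = Pic X_{ℚ̄_p}`. -/
theorem card_Atop_torsion (r : ℕ) [Fact r.Prime] (k : ℕ) :
    Nat.card {t : Atop p K c0 // r ^ k • t = 0}
      = r ^ (2 * genusFF (Kbar p) (FOmega (W := Wb p K) (B01 := B01) (Kbar p)) * k) :=
  card_picX_torsion c0 (Kbar p) hint0 hint1 htr H r k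

variable (N : ℕ) [NeZero N]

include hint0 hint1 htr H in
/-- **TORS-CMP on `Atop`, subgroup form** (`hcmp` of `K3Abs43.exists_global_root`). -/
theorem hcmp_Atop_sub
    (hg : genusFF (Kbar p) (FOmega (W := Wb p K) (B01 := B01) (Kbar p))
      ≤ genusFF Qbar (modularFunctionFieldBar N))
    (r : ℕ) [Fact r.Prime] (k : ℕ)
    (S : AddSubgroup (JZero N)) (hS : ∀ x : JZero N, r ^ k • x = 0 → x ∈ S)
    (j : ↥S →+ Atop p K c0) (hinj : Function.Injective j) :
    ∀ t : Atop p K c0, r ^ k • t = 0 → ∃ τ : ↥S, j τ = t := by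
  haveI := Fermat.Agent.MW.CurveInst7.isCurveOver_bar N
  haveI := Fermat.Agent.MW.CurveInst7.essFiniteType_bar N
  exact hcmp_baseChange c0 (Kbar p) hint0 hint1 htr H Qbar (modularFunctionFieldBar N) hg r k S hS
    j hinj

include hint0 hint1 htr H in
/-- **TORS-CMP on `Atop`** (`hcmp` of `K3Abs43.k3_abstract`, one `k`). -/
theorem hcmp_Atop
    (hg : genusFF (Kbar p) (FOmega (W := Wb p K) (B01 := B01) (Kbar p))
      ≤ genusFF Qbar (modularFunctionFieldBar N))
    (r : ℕ) [Fact r.Prime] (k : ℕ)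
    (j : JZero N →+ Atop p K c0) (hinj : Function.Injective j) :
    ∀ t : Atop p K c0, r ^ k • t = 0 → ∃ τ : JZero N, j τ = t := by
  haveI := Fermat.Agent.MW.CurveInst7.isCurveOver_bar N
  haveI := Fermat.Agent.MW.CurveInst7.essFiniteType_bar N
  exact hcmp_baseChange_top c0 (Kbar p) hint0 hint1 htr H Qbar (modularFunctionFieldBar N) hg r k
    j hinj

include hint0 hint1 htr H in
/-- **TORS-CMP on `Atop`, all `k`** — literally the hypothesis `hcmp` of `K3Abs43.k3_abstract`. -/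
theorem hcmp_Atop_all
    (hg : genusFF (Kbar p) (FOmega (W := Wb p K) (B01 := B01) (Kbar p))
      ≤ genusFF Qbar (modularFunctionFieldBar N))
    (r : ℕ) [Fact r.Prime]
    (j : JZero N →+ Atop p K c0) (hinj : Function.Injective j) :
    ∀ (k : ℕ) (t : Atop p K c0), r ^ k • t = 0 → ∃ τ : JZero N, j τ = t :=
  fun k => hcmp_Atop p K c0 hint0 hint1 htr H N hg r k j hinj

end Fermat.Agent.MAZ.TorsCmp73
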