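/-
Programme MAZ (S15), brick 744 T1B-U6 TORS-CMP ("local torsion is algebraic"), INTEGRATION at the
NODAL HUB (helper73).

Context of helper1's `T1B/DescSep1/NodalModelGen` (= helper94's `MAZ/TorsCmp94/Nodal.lean`, helper47's
`MAZ/TorsCmp47/CurveHyp.lean`): `W` a domain with fraction field `K` of characteristic `0`,
`M : NodalTwoChartModel W F π t B0 B1 O1 O2` a nodal two-chart model inside a field `F / K` with an
injective expansion `e : F →+* K((q))`, `t` a transcendental generator of `F / K`, charts of finite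
type over `W` and finite projective over the line.  For an algebraically closed field `Ω ⊇ K` of
characteristic `0` ALL hypotheses of `TorsCmp73.hcmp_baseChange` except the genus inequality are
discharged:

* `card_picX_torsion_nodal` : `#(Pic X_Ω)[r ^ k] = r ^ (2 g_Ω k)`;
* **`hcmp_nodal`** / `hcmp_nodal_sub` : TORS-CMP for `c0 = nodalChart M`, given only
  `hg : genusFF Ω (FOmega Ω) ≤ genusFF Q FQ` (helper12 `TorsCmp12` + helper32 `TorsCmp32`).
-/
import Mathlib
import Fermat.Agent.MAZ.TorsCmp73.BaseChange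
import Fermat.Agent.MAZ.TorsCmp94.Nodal
import Fermat.Agent.MAZ.TorsCmp47.CurveHyp

set_option autoImplicit false
set_option linter.unusedSectionVars false
set_option linter.style.haveILetI false
set_option synthInstance.maxHeartbeats 400000
set_option maxHeartbeats 1000000

universe u

open AlgebraicCurve TensorProduct
open HahnSeries ModularCurve
open Fermat.Agent.Jac Fermat.Agent.Jac.AbelJacobi73 Fermat.Agent.Jac.JGroup85Pic
open Fermat.Agent.X0.FF
open Fermat.Agent.T1.RedIface75 Fermat.Agent.MAZ.TorsCmp94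
open Fermat.Agent.T1B.NodalFacts23 Fermat.Agent.ES.N34.NodalCore13
open Fermat.Agent.T1.Coh60 (algebra0 algebra1 isScalarTower0 isScalarTower1)
open Fermat.Agent.T1B.DescSep1.Gen
open scoped Fermat.Agent.Jac.BaseChange75

namespace Fermat.Agent.MAZ.TorsCmp73

attribute [local instance] algebra0 algebra1 isScalarTower0 isScalarTower1

variable {W F : Type u} {K : Type*} [CommRing W] [IsDomain W] [Field K] [CharZero K]
  [Algebra W K] [IsFractionRing W K] [Field F] [Algebra K F] [Algebra W F] [IsScalarTower W K F]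
  (e : F →+* LaurentSeries K) (he : ∀ c : K, e (algebraMap K F c) = HahnSeries.C c)
  (hinj : Function.Injective e)
  {π : W} {t : F} {B0 B1 : Subalgebra W F} {O1 O2 : ValuationSubring F}
  (Ω : Type u) [Field Ω] [IsAlgClosed Ω] [CharZero Ω] [Algebra K Ω] [Algebra W Ω]
  [IsScalarTower W K Ω]
  (M : NodalTwoChartModel W F π t B0 B1 O1 O2)
  [Algebra.FiniteType W ↥B0] [Algebra.FiniteType W ↥B1] (ht : IsGen K t)
  (hfp : (cNodal M).FiniteProjOverLine)

include e he hinj ht hfp in
/-- `#(Pic X_Ω)[r ^ k] = r ^ (2 g_Ω k)` for the nodal hub. -/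
theorem card_picX_torsion_nodal (r : ℕ) [Fact r.Prime] (k : ℕ) :
    haveI := isDomain01_nodal e he hinj Ω (B0 := B0) (B1 := B1)
    Nat.card {x : Additive (PicX (cNodal M) Ω) // r ^ k • x = 0}
      = r ^ (2 * genusFF Ω (FOmega (W := W) (B01 := ↥(B0 ⊔ B1)) Ω) * k) := by
  haveI := isDedekindDomain_nodalChart0 e he hinj Ω M ht
  haveI := isDedekindDomain_nodalChart1 e he hinj Ω M ht
  haveI := isDomain01_nodal e he hinj Ω (B0 := B0) (B1 := B1)
  exact card_picX_torsion (W := W) (B0 := ↥B0) (B1 := ↥B1) (B01 := ↥(B0 ⊔ B1)) (cNodal M) Ω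
    (hint0_nodal M) (hint1_nodal M) (transcendental_nodal e he hinj Ω M ht)
    (Fermat.Agent.MAZ.TorsCmp47.curveHyp_nodalChart (K := K) Ω M ht hfp) r k

variable (Q FQ : Type*) [Field Q] [Field FQ] [Algebra Q FQ] [IsAlgClosed Q] [CharZero Q]
  [IsCurveOver Q FQ] [Algebra.EssFiniteType Q FQ]

include e he hinj ht hfp in
/-- **TORS-CMP for the nodal hub, subgroup form.** -/
theorem hcmp_nodal_sub
    (hg : haveI := isDomain01_nodal e he hinj Ω (B0 := B0) (B1 := B1)
      genusFF Ω (FOmega (W := W) (B01 := ↥(B0 ⊔ B1)) Ω) ≤ genusFF Q FQ)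
    (r : ℕ) [Fact r.Prime] (k : ℕ)
    (S : AddSubgroup (Pic0 Q FQ)) (hS : ∀ x : Pic0 Q FQ, r ^ k • x = 0 → x ∈ S)
    (j : ↥S →+ Additive (PicX (cNodal M) Ω)) (hj : Function.Injective j) :
    ∀ x : Additive (PicX (cNodal M) Ω), r ^ k • x = 0 → ∃ τ : ↥S, j τ = x := by
  haveI := isDedekindDomain_nodalChart0 e he hinj Ω M ht
  haveI := isDedekindDomain_nodalChart1 e he hinj Ω M ht
  haveI := isDomain01_nodal e he hinj Ω (B0 := B0) (B1 := B1)
  exact hcmp_baseChange (W := W) (B0 := ↥B0) (B1 := ↥B1) (B01 := ↥(B0 ⊔ B1)) (cNodal M) Ω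
    (hint0_nodal M) (hint1_nodal M) (transcendental_nodal e he hinj Ω M ht)
    (Fermat.Agent.MAZ.TorsCmp47.curveHyp_nodalChart (K := K) Ω M ht hfp) Q FQ hg r k S hS j hj

include e he hinj ht hfp in
/-- **TORS-CMP for the nodal hub** (`hcmp` of `K3Abs43.k3_abstract`, one `k`). -/
theorem hcmp_nodal
    (hg : haveI := isDomain01_nodal e he hinj Ω (B0 := B0) (B1 := B1)
      genusFF Ω (FOmega (W := W) (B01 := ↥(B0 ⊔ B1)) Ω) ≤ genusFF Q FQ)
    (r : ℕ) [Fact r.Prime] (k : ℕ)
    (j : Pic0 Q FQ →+ Additive (PicX (cNodal M) Ω)) (hj : Function.Injective j) :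
    ∀ x : Additive (PicX (cNodal M) Ω), r ^ k • x = 0 → ∃ τ : Pic0 Q FQ, j τ = x := by
  haveI := isDedekindDomain_nodalChart0 e he hinj Ω M ht
  haveI := isDedekindDomain_nodalChart1 e he hinj Ω M ht
  haveI := isDomain01_nodal e he hinj Ω (B0 := B0) (B1 := B1)
  exact hcmp_baseChange_top (W := W) (B0 := ↥B0) (B1 := ↥B1) (B01 := ↥(B0 ⊔ B1)) (cNodal M) Ω
    (hint0_nodal M) (hint1_nodal M) (transcendental_nodal e he hinj Ω M ht)
    (Fermat.Agent.MAZ.TorsCmp47.curveHyp_nodalChart (K := K) Ω M ht hfp) Q FQ hg r k j hj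

end Fermat.Agent.MAZ.TorsCmp73
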